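import Fermat.Agent.H77.FrCore.KerB
import Fermat.Agent.H19.Cft.HomologyApi

/-!
# P-CFT / FR-CORE (helper77): the frame core

`frameCore_of_api : HomologyApiStatement → FrameCoreStatement` and, with helper19's
`homologyApi`, the unconditional `frameCore : FrameCoreStatement`.

The triple is `X = Z²_c(M)`, `π (a, b) = [a]`, `Θ x [y] = Θ²(x)(y)`.
-/

set_option autoImplicit false

universe u

open CategoryTheory groupCohomology

namespace Fermat.Agent.H77

open Fermat.Agent.H13.Cft

/-- **[F-CORE]** from the homology API. -/
theorem frameCore_of_api (hApi : HomologyApiStatement.{u}) : FrameCoreStatement.{u} := by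
  intro k G _ _ 𝔄 T hc M _ hP hloc
  have hbij : Function.Bijective
      (HomologicalComplex.homologyMap (thetaHom M T (hc M)) 2).hom :=
    haveI := hP.2.1
    ConcreteCategory.bijective_of_isIso (HomologicalComplex.homologyMap (thetaHom M T (hc M)) 2)
  refine ⟨FrcX 𝔄 M, inferInstance, inferInstance, frcPi hApi 𝔄 M, frcTheta hApi T M (hc M),
    frc_range_pi hApi 𝔄 M, frc_theta_surjective hApi T M (hc M) hbij.2, ?_⟩
  exact le_antisymm (frc_ker_pi_le hApi T M (hc M))
    (frc_ker_theta_le hApi T M (hc M) hbij.1 hloc)

/-- **[F-CORE]** `Θ²` iso + local duality onto ⟹ the linear-algebraic core. -/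
theorem frameCore : FrameCoreStatement.{u} :=
  frameCore_of_api Fermat.Agent.H19.homologyApi

end Fermat.Agent.H77
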