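import Fermat.Agent.H77.FrCore.KerA

/-!
# P-CFT / FR-CORE (helper77): `ker Θ ≤ ker π`
-/

set_option autoImplicit false

universe u

open CategoryTheory groupCohomology

namespace Fermat.Agent.H77

open Fermat.Agent.H13.Cft

section LocSingle

variable {k G : Type u} [CommRing k] [Group G] (𝔄 : ArithDatum k G) (M : Rep.{u} k G)

/-- Level cochains as elements of the level complex. -/
noncomputable def frcLvlOut (𝒰 : LevelSys G) (n : ℕ) :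
    (lvlComplex 𝒰 M).X n →ₗ[k] lvlCochains 𝒰 M n :=
  LinearMap.id

open Classical in
/-- The local cochain supported at `v`. -/
noncomputable def frcLocSingle (v : 𝔄.ι) (n : ℕ) :
    lvlCochains (𝔄.lvlv v) (Rep.res (𝔄.loc v) M) n →ₗ[k] (locComplex 𝔄 M).X n :=
  frcLocMk 𝔄 M n ∘ₗ
    LinearMap.single k (fun v => lvlCochains (𝔄.lvlv v) (Rep.res (𝔄.loc v) M) n) v

open Classical in
theorem frcLocOut_single (v : 𝔄.ι) (n : ℕ)
    (y : lvlCochains (𝔄.lvlv v) (Rep.res (𝔄.loc v) M) n) :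
    frcLocOut 𝔄 M n (frcLocSingle 𝔄 M v n y) = Pi.single v y := rfl

theorem frcLocSingle_d (v : 𝔄.ι) (n : ℕ)
    (y : lvlCochains (𝔄.lvlv v) (Rep.res (𝔄.loc v) M) n) :
    ((locComplex 𝔄 M).d n (n + 1)).hom (frcLocSingle 𝔄 M v n y) =
      frcLocSingle 𝔄 M v (n + 1) (lvlD (𝔄.lvlv v) (Rep.res (𝔄.loc v) M) n y) := by
  classical
  refine frc_loc_ext 𝔄 M fun w => ?_
  rw [frcLocOut_d, frcLocOut_single, frcLocOut_single]
  exact Pi.apply_single (fun w => lvlD (𝔄.lvlv w) (Rep.res (𝔄.loc w) M) n)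
    (fun w => map_zero _) v y w

theorem frc_sum_single (n : ℕ) (b : (locComplex 𝔄 M).X n) :
    b = ∑ v, frcLocSingle 𝔄 M v n (frcLocOut 𝔄 M n b v) := by
  classical
  have h := Finset.univ_sum_single (frcLocOut 𝔄 M n b)
  refine frc_loc_ext 𝔄 M fun w => ?_
  rw [map_sum]
  exact (congrFun h w).symm

/-- Local restrictions of a global cocycle are cocycles. -/
theorem frc_locRes_cocycle (n : ℕ) (y : frcZ (lvlComplex 𝔄.lvl M) n) (v : 𝔄.ι) :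
    lvlD (𝔄.lvlv v) (Rep.res (𝔄.loc v) M) n (locRes 𝔄 M v n y.1) = 0 := by
  have h := mem_frcZ.mp (frc_map_mem (resTot 𝔄 M) n y)
  have h1 := frcLocOut_d 𝔄 M n (((resTot 𝔄 M).f n).hom y.1) v
  rw [h] at h1
  rw [frcLocOut_resTot] at h1
  exact h1.symm

end LocSingle

section KerB

variable {k G : Type u} [Field k] [Group G] (hApi : HomologyApiStatement.{u})
  {𝔄 : ArithDatum k G} (T : Trace 𝔄) (M : Rep.{u} k G)

include hApi in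
/-- Local duality (onto form): every linear form on `H¹` of the product of the local complexes
is, on global classes, `- Θ²(0, a)` for local cocycles `a`. -/
theorem frc_local_rep (hloc : LocalOnto 𝔄 T M)
    (Ψ : (locComplex 𝔄 (M.dualTwist 𝔄.χ)).homology 1 →ₗ[k] k) :
    ∃ a : ∀ v, lvlCochains (𝔄.lvlv v) (Rep.res (𝔄.loc v) M) 1,
      (∀ v, lvlD (𝔄.lvlv v) (Rep.res (𝔄.loc v) M) 1 (a v) = 0) ∧
      ∀ y : frcZ (lvlComplex 𝔄.lvl (M.dualTwist 𝔄.χ)) 1,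
        theta2 M T (0, a) y.1 =
          - Ψ ((HomologicalComplex.homologyMap (resTot 𝔄 (M.dualTwist 𝔄.χ)) 1).hom
            (frcCls hApi (lvlComplex 𝔄.lvl (M.dualTwist 𝔄.χ)) 1 y)) := by
  classical
  obtain ⟨Gt, hGt⟩ := LinearMap.exists_extend
    (Ψ ∘ₗ frcCls hApi (locComplex 𝔄 (M.dualTwist 𝔄.χ)) 1)
  have hGt' : ∀ b : frcZ (locComplex 𝔄 (M.dualTwist 𝔄.χ)) 1,
      Gt b.1 = Ψ (frcCls hApi (locComplex 𝔄 (M.dualTwist 𝔄.χ)) 1 b) :=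
    fun b => LinearMap.congr_fun hGt b
  -- the local linear forms
  have hψ : ∀ v, ∃ ψ : (lvlComplex (𝔄.lvlv v)
      (Rep.res (𝔄.loc v) (M.dualTwist 𝔄.χ))).homology 1 →ₗ[k] k,
      ∀ yv : frcZ (lvlComplex (𝔄.lvlv v) (Rep.res (𝔄.loc v) (M.dualTwist 𝔄.χ))) 1,
        ψ (frcCls hApi (lvlComplex (𝔄.lvlv v) (Rep.res (𝔄.loc v) (M.dualTwist 𝔄.χ))) 1 yv) =
          Gt (frcLocSingle 𝔄 (M.dualTwist 𝔄.χ) v 1
            (frcLvlOut (Rep.res (𝔄.loc v) (M.dualTwist 𝔄.χ)) (𝔄.lvlv v) 1 yv.1)) := by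
    intro v
    refine frc_desc hApi (lvlComplex (𝔄.lvlv v) (Rep.res (𝔄.loc v) (M.dualTwist 𝔄.χ))) 0
      (Gt ∘ₗ frcLocSingle 𝔄 (M.dualTwist 𝔄.χ) v 1 ∘ₗ
        frcLvlOut (Rep.res (𝔄.loc v) (M.dualTwist 𝔄.χ)) (𝔄.lvlv v) 1 ∘ₗ
        (frcZ (lvlComplex (𝔄.lvlv v) (Rep.res (𝔄.loc v) (M.dualTwist 𝔄.χ))) 1).subtype) ?_
    intro e
    show Gt (frcLocSingle 𝔄 (M.dualTwist 𝔄.χ) v 1
      (((lvlComplex (𝔄.lvlv v) (Rep.res (𝔄.loc v) (M.dualTwist 𝔄.χ))).d 0 1).hom e)) = 0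
    rw [frc_lvl_d_apply, ← frcLocSingle_d]
    have h1 := hGt' ⟨_, frc_d_mem (locComplex 𝔄 (M.dualTwist 𝔄.χ)) 0
      (frcLocSingle 𝔄 (M.dualTwist 𝔄.χ) v 0 e)⟩
    rw [frcCls_d, map_zero] at h1
    exact h1
  choose ψ hψ using hψ
  have ha := fun v => hloc v (ψ v)
  choose a ha1 ha2 using ha
  refine ⟨a, ha1, fun y => ?_⟩
  rw [frcCls_map hApi (resTot 𝔄 (M.dualTwist 𝔄.χ)) 1 y
    (frc_map_mem (resTot 𝔄 (M.dualTwist 𝔄.χ)) 1 y), ← hGt']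
  show theta2 M T (0, a) y.1 = - Gt (((resTot 𝔄 (M.dualTwist 𝔄.χ)).f 1).hom y.1)
  rw [frc_theta2_apply, neg_inj]
  have h1 := frc_sum_single 𝔄 (M.dualTwist 𝔄.χ) 1 (((resTot 𝔄 (M.dualTwist 𝔄.χ)).f 1).hom y.1)
  rw [h1, map_sum]
  have h2 : ccCup 𝔄 M 1 1 (0, a) y.1 = ∑ v, ((0 : lvlCochains 𝔄.lvl (muRep 𝔄.χ) 3),
      (Pi.single v (cupLvl (𝔄.lvlv v) ((evPairing 𝔄.χ M).res (𝔄.loc v)) 1 1 (a v)
        (locRes 𝔄 (M.dualTwist 𝔄.χ) v 1 y.1)) :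
          ∀ v, lvlCochains (𝔄.lvlv v) (Rep.res (𝔄.loc v) (muRep 𝔄.χ)) 2)) := by
    refine Prod.ext ?_ ?_
    · rw [Prod.fst_sum, Finset.sum_const_zero]
      show cupLvl 𝔄.lvl (evPairing 𝔄.χ M) 2 1 0 y.1 = 0
      rw [map_zero, LinearMap.zero_apply]
    · rw [Prod.snd_sum]
      exact (Finset.univ_sum_single (fun v => cupLvl (𝔄.lvlv v)
        ((evPairing 𝔄.χ M).res (𝔄.loc v)) 1 1 (a v)
        (locRes 𝔄 (M.dualTwist 𝔄.χ) v 1 y.1))).symm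
  rw [h2, map_sum]
  refine Finset.sum_congr rfl fun v _ => ?_
  have h3 := ha2 v (locRes 𝔄 (M.dualTwist 𝔄.χ) v 1 y.1)
    (frc_locRes_cocycle 𝔄 (M.dualTwist 𝔄.χ) 1 y v)
  have h4 := hψ v ⟨locRes 𝔄 (M.dualTwist 𝔄.χ) v 1 y.1, by
    rw [mem_frcZ, frc_lvl_d_apply]
    exact frc_locRes_cocycle 𝔄 (M.dualTwist 𝔄.χ) 1 y v⟩
  exact h3.symm.trans h4

include hApi in
/-- If `Θ²(x)` vanishes on cocycles and `H²(Θ)` is injective, `x` is a coboundary. -/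
theorem frc_exact_of_vanish (h : ThetaComm M T)
    (hinj : Function.Injective (HomologicalComplex.homologyMap (thetaHom M T h) 2).hom)
    (x : FrcX 𝔄 M)
    (hx : ∀ y : frcZ (lvlComplex 𝔄.lvl (M.dualTwist 𝔄.χ)) 1,
      theta2 M T (ccOut 𝔄 M 1 x.1) y.1 = 0) :
    ∃ x₁ : (ccComplex 𝔄 M).X 1, ((ccComplex 𝔄 M).d 1 2).hom x₁ = x.1 := by
  have h1 : theta2 M T (ccOut 𝔄 M 1 x.1) ∈ (LinearMap.ker
      ((lvlComplex 𝔄.lvl (M.dualTwist 𝔄.χ)).d 1 2).hom).dualAnnihilator := by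
    rw [Submodule.mem_dualAnnihilator]
    intro y hy
    exact hx ⟨y, hy⟩
  rw [← LinearMap.range_dualMap_eq_dualAnnihilator_ker] at h1
  obtain ⟨η, hη⟩ := h1
  have h2 : ((dualCx (lvlComplex 𝔄.lvl (M.dualTwist 𝔄.χ))).d 1 2).hom
      (frcCo1 (lvlComplex 𝔄.lvl (M.dualTwist 𝔄.χ)) η) = ((thetaHom M T h).f 2).hom x.1 := by
    apply frcEv2_ext
    intro y
    rw [frcEv2_d]
    exact LinearMap.congr_fun hη y
  have h3 : frcCls hApi (dualCx (lvlComplex 𝔄.lvl (M.dualTwist 𝔄.χ))) 2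
      ⟨((thetaHom M T h).f 2).hom x.1, frc_map_mem (thetaHom M T h) 2 x⟩ = 0 := by
    rw [frcCls_eq_zero_iff hApi (dualCx (lvlComplex 𝔄.lvl (M.dualTwist 𝔄.χ))) 1]
    exact ⟨_, h2⟩
  rw [← frcCls_map hApi (thetaHom M T h) 2 x] at h3
  have h4 : frcCls hApi (ccComplex 𝔄 M) 2 x = 0 := hinj (h3.trans (map_zero _).symm)
  exact (frcCls_eq_zero_iff hApi (ccComplex 𝔄 M) 1 x).mp h4

include hApi in
theorem frc_ker_theta_le (h : ThetaComm M T)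
    (hinj : Function.Injective (HomologicalComplex.homologyMap (thetaHom M T h) 2).hom)
    (hloc : LocalOnto 𝔄 T M) :
    LinearMap.ker (frcTheta hApi T M h) ≤ LinearMap.ker (frcPi hApi 𝔄 M) := by
  intro x hx
  rw [LinearMap.mem_ker] at hx
  have h1 : (frcF hApi T M h).flip x ∈ (LinearMap.ker
      (HomologicalComplex.homologyMap (resTot 𝔄 (M.dualTwist 𝔄.χ)) 1).hom).dualAnnihilator := by
    rw [Submodule.mem_dualAnnihilator]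
    intro s hs
    exact LinearMap.congr_fun hx ⟨s, hs⟩
  rw [← LinearMap.range_dualMap_eq_dualAnnihilator_ker] at h1
  obtain ⟨Ψ, hΨ⟩ := h1
  obtain ⟨a, ha1, ha2⟩ := frc_local_rep hApi T M hloc Ψ
  have hxa : x.1 + ccMk 𝔄 M 1 (0, a) ∈ frcZ (ccComplex 𝔄 M) 2 :=
    Submodule.add_mem _ x.2 (frc_mk_mem 𝔄 M 0 a (map_zero _)
      (fun v => by rw [map_zero, ha1 v]))
  have hvan : ∀ y : frcZ (lvlComplex 𝔄.lvl (M.dualTwist 𝔄.χ)) 1,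
      theta2 M T (ccOut 𝔄 M 1 (x.1 + ccMk 𝔄 M 1 (0, a))) y.1 = 0 := by
    intro y
    rw [map_add, map_add, LinearMap.add_apply]
    show theta2 M T (ccOut 𝔄 M 1 x.1) y.1 + theta2 M T (0, a) y.1 = 0
    rw [ha2 y, ← frcF_cls hApi T M h y x]
    have h5 := LinearMap.congr_fun hΨ (frcCls hApi (lvlComplex 𝔄.lvl (M.dualTwist 𝔄.χ)) 1 y)
    rw [LinearMap.dualMap_apply, LinearMap.flip_apply] at h5
    rw [← h5, add_neg_cancel]
  obtain ⟨x₁, hx₁⟩ := frc_exact_of_vanish hApi T M h hinj ⟨_, hxa⟩ hvan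
  rw [LinearMap.mem_ker, frcPi_apply, frcCls_eq_zero_iff hApi (lvlComplex 𝔄.lvl M) 1]
  refine ⟨frcFst 𝔄 M 0 x₁, ?_⟩
  rw [frc_lvl_d_apply, ← frcFst_d, hx₁]
  show frcFst 𝔄 M 1 (x.1 + ccMk 𝔄 M 1 (0, a)) = frcFst 𝔄 M 1 x.1
  rw [map_add, frcFst_ccMk, add_zero]

end KerB

end Fermat.Agent.H77
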