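import Fermat.Agent.H77.FrCore.Surj

/-!
# P-CFT / FR-CORE (helper77): `ker π ≤ ker Θ`
-/

set_option autoImplicit false

universe u

open CategoryTheory groupCohomology

namespace Fermat.Agent.H77

open Fermat.Agent.H13.Cft

section KerA

variable {k G : Type u} [CommRing k] [Group G] (hApi : HomologyApiStatement.{u})
  {𝔄 : ArithDatum k G} (T : Trace 𝔄) (M : Rep.{u} k G)

/-- `Θ²` of a coboundary vanishes on cocycles. -/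
theorem frc_theta2_d_cocycle (h : ThetaComm M T) (x₀ : (ccComplex 𝔄 M).X 1)
    (y : frcZ (lvlComplex 𝔄.lvl (M.dualTwist 𝔄.χ)) 1) :
    theta2 M T (ccOut 𝔄 M 1 (((ccComplex 𝔄 M).d 1 2).hom x₀)) y.1 = 0 := by
  rw [frc_theta2_d T M h x₀ y.1]
  have h1 : lvlD 𝔄.lvl (M.dualTwist 𝔄.χ) 1 y.1 = 0 := by
    rw [← frc_lvl_d_apply]
    exact mem_frcZ.mp y.2
  rw [h1, map_zero]

/-- The trace kills `(0, (d c_v)_v)`. -/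
theorem frc_tau_d_local
    (c : ∀ v, lvlCochains (𝔄.lvlv v) (Rep.res (𝔄.loc v) (muRep 𝔄.χ)) 1) :
    T.τ (0, fun v => lvlD (𝔄.lvlv v) (Rep.res (𝔄.loc v) (muRep 𝔄.χ)) 1 (c v)) = 0 := by
  have h := T.τ_d (ccMk 𝔄 (muRep 𝔄.χ) 1 (0, fun v => - c v))
  have h1 : ccOut 𝔄 (muRep 𝔄.χ) 2 (((ccComplex 𝔄 (muRep 𝔄.χ)).d 2 3).hom
      (ccMk 𝔄 (muRep 𝔄.χ) 1 (0, fun v => - c v))) =
      (0, fun v => lvlD (𝔄.lvlv v) (Rep.res (𝔄.loc v) (muRep 𝔄.χ)) 1 (c v)) := by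
    rw [frc_ccOut_eq]
    refine Prod.ext ?_ (funext fun v => ?_)
    · show frcFst 𝔄 (muRep 𝔄.χ) 2 _ = 0
      rw [frcFst_d]
      show lvlD 𝔄.lvl (muRep 𝔄.χ) 2 0 = 0
      rw [map_zero]
    · show frcSnd 𝔄 (muRep 𝔄.χ) 2 v _ = _
      rw [frcSnd_d]
      show locRes 𝔄 (muRep 𝔄.χ) v 2 0 -
        lvlD (𝔄.lvlv v) (Rep.res (𝔄.loc v) (muRep 𝔄.χ)) 1 (- c v) = _
      rw [map_zero, map_neg, zero_sub, neg_neg]
  rw [h1] at h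
  exact h

/-- `Θ²(0, l)` vanishes on locally trivial cocycles, for local cocycles `l_v`. -/
theorem frc_theta2_local_zero
    (l : ∀ v, lvlCochains (𝔄.lvlv v) (Rep.res (𝔄.loc v) M) 1)
    (hl : ∀ v, lvlD (𝔄.lvlv v) (Rep.res (𝔄.loc v) M) 1 (l v) = 0)
    (y : lvlCochains 𝔄.lvl (M.dualTwist 𝔄.χ) 1)
    (e : ∀ v, lvlCochains (𝔄.lvlv v) (Rep.res (𝔄.loc v) (M.dualTwist 𝔄.χ)) 0)
    (he : ∀ v, locRes 𝔄 (M.dualTwist 𝔄.χ) v 1 y =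
      lvlD (𝔄.lvlv v) (Rep.res (𝔄.loc v) (M.dualTwist 𝔄.χ)) 0 (e v)) :
    theta2 M T (0, l) y = 0 := by
  rw [frc_theta2_apply, neg_eq_zero]
  have h1 : ccCup 𝔄 M 1 1 (0, l) y =
      (0, fun v => lvlD (𝔄.lvlv v) (Rep.res (𝔄.loc v) (muRep 𝔄.χ)) 1
        (- cupLvl (𝔄.lvlv v) ((evPairing 𝔄.χ M).res (𝔄.loc v)) 1 0 (l v) (e v))) := by
    refine Prod.ext ?_ (funext fun v => ?_)
    · show cupLvl 𝔄.lvl (evPairing 𝔄.χ M) 2 1 0 y = 0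
      rw [map_zero, LinearMap.zero_apply]
    · show cupLvl (𝔄.lvlv v) ((evPairing 𝔄.χ M).res (𝔄.loc v)) 1 1 (l v)
        (locRes 𝔄 (M.dualTwist 𝔄.χ) v 1 y) = _
      rw [he v, frc_leibniz10 (𝔄.lvlv v) ((evPairing 𝔄.χ M).res (𝔄.loc v)) (l v) (hl v) (e v)]
      exact (map_neg (lvlD (𝔄.lvlv v) (Rep.res (𝔄.loc v) (muRep 𝔄.χ)) 1) _).symm
  rw [h1]
  exact frc_tau_d_local T _

include hApi in
theorem frc_ker_pi_le (h : ThetaComm M T) :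
    LinearMap.ker (frcPi hApi 𝔄 M) ≤ LinearMap.ker (frcTheta hApi T M h) := by
  intro x hx
  rw [LinearMap.mem_ker, frcPi_apply, frcCls_eq_zero_iff hApi (lvlComplex 𝔄.lvl M) 1] at hx
  obtain ⟨a₀, ha₀⟩ := hx
  rw [LinearMap.mem_ker]
  refine LinearMap.ext fun s => ?_
  obtain ⟨y, hy⟩ := frcCls_surjective hApi (lvlComplex 𝔄.lvl (M.dualTwist 𝔄.χ)) 1 s.1
  rw [frcTheta_cls hApi T M h x s y hy, LinearMap.zero_apply]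
  -- local triviality of `y`
  have hs := s.2
  unfold frameSha at hs
  rw [LinearMap.mem_ker, ← hy,
    frcCls_map hApi (resTot 𝔄 (M.dualTwist 𝔄.χ)) 1 _
      (frc_map_mem (resTot 𝔄 (M.dualTwist 𝔄.χ)) 1 _),
    frcCls_eq_zero_iff hApi (locComplex 𝔄 (M.dualTwist 𝔄.χ)) 0] at hs
  obtain ⟨e, he⟩ := hs
  have he' : ∀ v, locRes 𝔄 (M.dualTwist 𝔄.χ) v 1 y.1 =
      lvlD (𝔄.lvlv v) (Rep.res (𝔄.loc v) (M.dualTwist 𝔄.χ)) 0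
        (frcLocOut 𝔄 (M.dualTwist 𝔄.χ) 0 e v) := by
    intro v
    rw [← frcLocOut_d, ← frcLocOut_resTot]
    exact (congrArg (fun c => frcLocOut 𝔄 (M.dualTwist 𝔄.χ) 1 c v) he).symm
  -- subtract the coboundary of `(a₀, 0)`
  set x₀ : (ccComplex 𝔄 M).X 1 := ccMk 𝔄 M 0 (a₀, 0) with hx₀
  have hw2 : ((ccComplex 𝔄 M).d 2 3).hom (x.1 - ((ccComplex 𝔄 M).d 1 2).hom x₀) = 0 := by
    rw [map_sub, mem_frcZ.mp x.2, mem_frcZ.mp (frc_d_mem (ccComplex 𝔄 M) 1 x₀), sub_zero]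
  have hw1 : frcFst 𝔄 M 1 (x.1 - ((ccComplex 𝔄 M).d 1 2).hom x₀) = 0 := by
    rw [map_sub, frcFst_d, sub_eq_zero]
    show frcFst 𝔄 M 1 x.1 = lvlD 𝔄.lvl M 1 a₀
    rw [← frc_lvl_d_apply]
    exact ha₀.symm
  have hl : ∀ v, lvlD (𝔄.lvlv v) (Rep.res (𝔄.loc v) M) 1
      (frcSnd 𝔄 M 1 v (x.1 - ((ccComplex 𝔄 M).d 1 2).hom x₀)) = 0 := by
    intro v
    have h3 := frcSnd_d 𝔄 M 1 v (x.1 - ((ccComplex 𝔄 M).d 1 2).hom x₀)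
    rw [hw2, hw1, map_zero, map_zero, zero_sub] at h3
    exact neg_eq_zero.mp h3.symm
  have hdecomp : ccOut 𝔄 M 1 x.1 = ccOut 𝔄 M 1 (((ccComplex 𝔄 M).d 1 2).hom x₀) +
      (0, fun v => frcSnd 𝔄 M 1 v (x.1 - ((ccComplex 𝔄 M).d 1 2).hom x₀)) := by
    have h4 : ccOut 𝔄 M 1 (x.1 - ((ccComplex 𝔄 M).d 1 2).hom x₀) =
        (0, fun v => frcSnd 𝔄 M 1 v (x.1 - ((ccComplex 𝔄 M).d 1 2).hom x₀)) := by
      rw [frc_ccOut_eq, hw1]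
    rw [← h4, map_sub]
    abel
  rw [hdecomp, map_add, LinearMap.add_apply, frc_theta2_d_cocycle T M h x₀ y, zero_add]
  exact frc_theta2_local_zero T M _ hl y.1 _ he'

end KerA

end Fermat.Agent.H77
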