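import Fermat.Agent.H77.FrCore.Api

set_option autoImplicit false

universe u

open CategoryTheory

namespace Fermat.Agent.H77

open Fermat.Agent.H13.Cft

section Unfold

variable {k G : Type u} [CommRing k] [Group G] (𝔄 : ArithDatum k G) (M : Rep.{u} k G)

theorem frc_lvl_d_apply (𝒰 : LevelSys G) (n : ℕ) (x : lvlCochains 𝒰 M n) :
    ((lvlComplex 𝒰 M).d n (n + 1)).hom x = lvlD 𝒰 M n x := by
  simp [CochainComplex.of.d]

/-- Components of a local cochain. -/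
noncomputable def frcLocOut (n : ℕ) :
    (locComplex 𝔄 M).X n →ₗ[k] ∀ v, lvlCochains (𝔄.lvlv v) (Rep.res (𝔄.loc v) M) n :=
  LinearMap.id

/-- Local cochain with given components. -/
noncomputable def frcLocMk (n : ℕ) :
    (∀ v, lvlCochains (𝔄.lvlv v) (Rep.res (𝔄.loc v) M) n) →ₗ[k] (locComplex 𝔄 M).X n :=
  LinearMap.id

@[simp] theorem frcLocOut_mk (n : ℕ) (b : ∀ v, lvlCochains (𝔄.lvlv v) (Rep.res (𝔄.loc v) M) n) :
    frcLocOut 𝔄 M n (frcLocMk 𝔄 M n b) = b := rfl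

@[simp] theorem frcLocMk_out (n : ℕ) (b : (locComplex 𝔄 M).X n) :
    frcLocMk 𝔄 M n (frcLocOut 𝔄 M n b) = b := rfl

theorem frcLocOut_d (n : ℕ) (x : (locComplex 𝔄 M).X n) (v : 𝔄.ι) :
    frcLocOut 𝔄 M (n + 1) (((locComplex 𝔄 M).d n (n + 1)).hom x) v =
      lvlD (𝔄.lvlv v) (Rep.res (𝔄.loc v) M) n (frcLocOut 𝔄 M n x v) := by
  have h1 : (locComplex 𝔄 M).d n (n + 1) = ModuleCat.ofHom (LinearMap.pi fun v =>
      lvlD (𝔄.lvlv v) (Rep.res (𝔄.loc v) M) n ∘ₗ LinearMap.proj v) := by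
    unfold locComplex
    exact CochainComplex.of_d (V := ModuleCat.{u} k) (α := ℕ) _ (fun n => ModuleCat.ofHom
      (LinearMap.pi fun v => lvlD (𝔄.lvlv v) (Rep.res (𝔄.loc v) M) n ∘ₗ LinearMap.proj v)) n
  rw [h1]
  rfl

theorem frcLocOut_resTot (n : ℕ) (x : lvlCochains 𝔄.lvl M n) (v : 𝔄.ι) :
    frcLocOut 𝔄 M n (((resTot 𝔄 M).f n).hom x) v = locRes 𝔄 M v n x :=
  rfl

/-- First component of a compactly supported cochain. -/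
noncomputable def frcFst (n : ℕ) : (ccComplex 𝔄 M).X (n + 1) →ₗ[k] lvlCochains 𝔄.lvl M (n + 1) :=
  LinearMap.fst k _ _ ∘ₗ ccOut 𝔄 M n

/-- Local components of a compactly supported cochain. -/
noncomputable def frcSnd (n : ℕ) (v : 𝔄.ι) :
    (ccComplex 𝔄 M).X (n + 1) →ₗ[k] lvlCochains (𝔄.lvlv v) (Rep.res (𝔄.loc v) M) n :=
  LinearMap.proj v ∘ₗ LinearMap.snd k _ _ ∘ₗ ccOut 𝔄 M n

theorem frc_cc_ext {n : ℕ} {x y : (ccComplex 𝔄 M).X (n + 1)}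
    (h1 : frcFst 𝔄 M n x = frcFst 𝔄 M n y) (h2 : ∀ v, frcSnd 𝔄 M n v x = frcSnd 𝔄 M n v y) :
    x = y := by
  have : ccOut 𝔄 M n x = ccOut 𝔄 M n y := Prod.ext h1 (funext h2)
  exact this

@[simp] theorem frcFst_ccMk (n : ℕ) (x : CcProd 𝔄 M n) : frcFst 𝔄 M n (ccMk 𝔄 M n x) = x.1 := rfl

@[simp] theorem frcSnd_ccMk (n : ℕ) (v : 𝔄.ι) (x : CcProd 𝔄 M n) :
    frcSnd 𝔄 M n v (ccMk 𝔄 M n x) = x.2 v := rfl

theorem frc_ccOut_eq (n : ℕ) (x : (ccComplex 𝔄 M).X (n + 1)) :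
    ccOut 𝔄 M n x = (frcFst 𝔄 M n x, fun v => frcSnd 𝔄 M n v x) := rfl

theorem frc_cc_d (n : ℕ) :
    (ccComplex 𝔄 M).d (n + 1) (n + 2) = coneD (resTot 𝔄 M) (n + 1) := by
  unfold ccComplex coneShift
  exact CochainComplex.of_d (α := ℕ) _ _ _

theorem frcFst_d (n : ℕ) (x : (ccComplex 𝔄 M).X (n + 1)) :
    frcFst 𝔄 M (n + 1) (((ccComplex 𝔄 M).d (n + 1) (n + 2)).hom x) =
      lvlD 𝔄.lvl M (n + 1) (frcFst 𝔄 M n x) := by
  rw [frc_cc_d]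
  exact frc_lvl_d_apply M 𝔄.lvl (n + 1) (frcFst 𝔄 M n x)

theorem frcSnd_d (n : ℕ) (v : 𝔄.ι) (x : (ccComplex 𝔄 M).X (n + 1)) :
    frcSnd 𝔄 M (n + 1) v (((ccComplex 𝔄 M).d (n + 1) (n + 2)).hom x) =
      locRes 𝔄 M v (n + 1) (frcFst 𝔄 M n x) -
        lvlD (𝔄.lvlv v) (Rep.res (𝔄.loc v) M) n (frcSnd 𝔄 M n v x) := by
  rw [frc_cc_d]
  have h := frcLocOut_d 𝔄 M n (ccOut 𝔄 M n x).2 v
  show locRes 𝔄 M v (n + 1) (frcFst 𝔄 M n x) -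
    frcLocOut 𝔄 M (n + 1) (((locComplex 𝔄 M).d n (n + 1)).hom (ccOut 𝔄 M n x).2) v = _
  rw [h]
  rfl

/-- degree `0 → 1` -/
theorem frc_cc_d_zero : (ccComplex 𝔄 M).d 0 1 = coneD (resTot 𝔄 M) 0 := by
  unfold ccComplex coneShift
  exact CochainComplex.of_d (V := ModuleCat.{u} k) (α := ℕ) _ (coneD (resTot 𝔄 M)) 0

end Unfold

end Fermat.Agent.H77
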