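import Fermat.Agent.H13.Cft.Interfaces

/-!
# P-CFT / FR-CORE (helper77): consequences of the homology API

Everything here is derived from `HomologyApiStatement` (row FR-API), taken as a hypothesis:
the class map `Zⁿ → Hⁿ` is linear and surjective, its kernel consists of the coboundaries, it
is natural, and linear maps on cocycles killing coboundaries descend to homology.
-/

set_option autoImplicit false

universe u

open CategoryTheory

namespace Fermat.Agent.H77

open Fermat.Agent.H13.Cft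

section Api

variable {k : Type u} [CommRing k]

/-- The cocycles `Zⁿ(K) = ker (d : Kⁿ → Kⁿ⁺¹)`. -/
def frcZ (K : CochainComplex (ModuleCat.{u} k) ℕ) (n : ℕ) : Submodule k (K.X n) :=
  LinearMap.ker (K.d n (n + 1)).hom

theorem mem_frcZ {K : CochainComplex (ModuleCat.{u} k) ℕ} {n : ℕ} {x : K.X n} :
    x ∈ frcZ K n ↔ (K.d n (n + 1)).hom x = 0 :=
  Iff.rfl

/-- Coboundaries are cocycles. -/
theorem frc_d_mem (K : CochainComplex (ModuleCat.{u} k) ℕ) (n : ℕ) (y : K.X n) :
    (K.d n (n + 1)).hom y ∈ frcZ K (n + 1) := by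
  rw [mem_frcZ]
  exact LinearMap.congr_fun (congrArg ModuleCat.Hom.hom (K.d_comp_d n (n + 1) (n + 2))) y

variable (hApi : HomologyApiStatement.{u})
include hApi

/-- The class map `Zⁿ → Hⁿ`. -/
noncomputable def frcCls (K : CochainComplex (ModuleCat.{u} k) ℕ) (n : ℕ) :
    frcZ K n →ₗ[k] K.homology n where
  toFun x := hMk K n x.1 x.2
  map_add' x y := (hApi K n).2.1 x.1 y.1 x.2 y.2 (x + y).2
  map_smul' c x := (hApi K n).2.2.1 c x.1 x.2 (c • x).2

theorem frcCls_apply (K : CochainComplex (ModuleCat.{u} k) ℕ) (n : ℕ) (x : frcZ K n) :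
    frcCls hApi K n x = hMk K n x.1 x.2 :=
  rfl

theorem frcCls_surjective (K : CochainComplex (ModuleCat.{u} k) ℕ) (n : ℕ) :
    Function.Surjective (frcCls hApi K n) := by
  intro z
  obtain ⟨x, hx, h⟩ := (hApi K n).1 z
  exact ⟨⟨x, hx⟩, h⟩

theorem frcCls_eq_zero_iff (K : CochainComplex (ModuleCat.{u} k) ℕ) (n : ℕ)
    (x : frcZ K (n + 1)) :
    frcCls hApi K (n + 1) x = 0 ↔ ∃ y : K.X n, (K.d n (n + 1)).hom y = x.1 :=
  (hApi K n).2.2.2.1 x.1 x.2

theorem frcCls_d (K : CochainComplex (ModuleCat.{u} k) ℕ) (n : ℕ) (y : K.X n) :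
    frcCls hApi K (n + 1) ⟨(K.d n (n + 1)).hom y, frc_d_mem K n y⟩ = 0 :=
  (frcCls_eq_zero_iff hApi K n _).mpr ⟨y, rfl⟩

theorem frcCls_eq_iff (K : CochainComplex (ModuleCat.{u} k) ℕ) (n : ℕ)
    (x x' : frcZ K (n + 1)) :
    frcCls hApi K (n + 1) x = frcCls hApi K (n + 1) x' ↔
      ∃ y : K.X n, (K.d n (n + 1)).hom y = x.1 - x'.1 := by
  rw [← sub_eq_zero, ← map_sub, frcCls_eq_zero_iff]
  rfl

/-- Naturality of the class map. -/
theorem frcCls_map {K L : CochainComplex (ModuleCat.{u} k) ℕ} (f : K ⟶ L) (n : ℕ)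
    (x : frcZ K n) (hfx : (f.f n).hom x.1 ∈ frcZ L n) :
    (HomologicalComplex.homologyMap f n).hom (frcCls hApi K n x) =
      frcCls hApi L n ⟨(f.f n).hom x.1, hfx⟩ :=
  (hApi K n).2.2.2.2.2 L f x.1 x.2 hfx

omit hApi in
/-- A chain map sends cocycles to cocycles. -/
theorem frc_map_mem {K L : CochainComplex (ModuleCat.{u} k) ℕ} (f : K ⟶ L) (n : ℕ)
    (x : frcZ K n) : (f.f n).hom x.1 ∈ frcZ L n := by
  rw [mem_frcZ]
  have h := LinearMap.congr_fun (congrArg ModuleCat.Hom.hom (f.comm n (n + 1))) x.1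
  have h' : (L.d n (n + 1)).hom ((f.f n).hom x.1) = (f.f (n + 1)).hom ((K.d n (n + 1)).hom x.1) :=
    h
  rw [h', mem_frcZ.mp x.2, map_zero]

/-- Linear maps on cocycles which kill the coboundaries descend to homology. -/
theorem frc_desc (K : CochainComplex (ModuleCat.{u} k) ℕ) (n : ℕ) {W : Type*} [AddCommGroup W]
    [Module k W] (g : frcZ K (n + 1) →ₗ[k] W)
    (hg : ∀ y : K.X n, g ⟨(K.d n (n + 1)).hom y, frc_d_mem K n y⟩ = 0) :
    ∃ F : K.homology (n + 1) →ₗ[k] W, ∀ x : frcZ K (n + 1), F (frcCls hApi K (n + 1) x) = g x := by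
  have hker : LinearMap.ker (frcCls hApi K (n + 1)) ≤ LinearMap.ker g := by
    intro x hx
    rw [LinearMap.mem_ker, frcCls_eq_zero_iff] at hx
    obtain ⟨y, hy⟩ := hx
    rw [LinearMap.mem_ker]
    have : x = ⟨(K.d n (n + 1)).hom y, frc_d_mem K n y⟩ := Subtype.ext hy.symm
    rw [this]
    exact hg y
  refine ⟨((LinearMap.ker (frcCls hApi K (n + 1))).liftQ g hker).comp
    ((frcCls hApi K (n + 1)).quotKerEquivOfSurjective
      (frcCls_surjective hApi K (n + 1))).symm.toLinearMap, fun x => ?_⟩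
  have h1 : ((frcCls hApi K (n + 1)).quotKerEquivOfSurjective
      (frcCls_surjective hApi K (n + 1))).symm (frcCls hApi K (n + 1) x) =
      Submodule.Quotient.mk x := by
    rw [LinearEquiv.symm_apply_eq]
    rfl
  rw [LinearMap.comp_apply, LinearEquiv.coe_coe, h1]
  rfl

end Api

end Fermat.Agent.H77
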