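import Fermat.Agent.H77.FrCore.Leibniz

/-!
# P-CFT / FR-CORE (helper77): the triple `(X, π, Θ)`

`X = Z²_c(M)` (compactly supported `2`-cocycles), `π (a, b) = [a] ∈ H²(M)` and
`Θ x [y] = Θ²(x)(y)` for `[y] ∈ Ш¹(M^*(χ))`.
-/

set_option autoImplicit false

universe u

open CategoryTheory groupCohomology

namespace Fermat.Agent.H77

open Fermat.Agent.H13.Cft

section Defs

variable {k G : Type u} [CommRing k] [Group G] (hApi : HomologyApiStatement.{u})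
  (𝔄 : ArithDatum k G) (T : Trace 𝔄) (M : Rep.{u} k G)

/-- The compactly supported `2`-cocycles. -/
abbrev FrcX : Type u := frcZ (ccComplex 𝔄 M) 2

theorem frcFst_mem (x : FrcX 𝔄 M) : frcFst 𝔄 M 1 x.1 ∈ frcZ (lvlComplex 𝔄.lvl M) 2 := by
  rw [mem_frcZ, frc_lvl_d_apply, ← frcFst_d, mem_frcZ.mp x.2, map_zero]

/-- The global component of a compactly supported `2`-cocycle. -/
noncomputable def frcFstZ : FrcX 𝔄 M →ₗ[k] frcZ (lvlComplex 𝔄.lvl M) 2 :=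
  (frcFst 𝔄 M 1 ∘ₗ (frcZ (ccComplex 𝔄 M) 2).subtype).codRestrict _ (frcFst_mem 𝔄 M)

theorem frcFstZ_coe (x : FrcX 𝔄 M) : (frcFstZ 𝔄 M x).1 = frcFst 𝔄 M 1 x.1 := rfl

include hApi in
/-- The map `π`: forget the supports. -/
noncomputable def frcPi : FrcX 𝔄 M →ₗ[k] (lvlComplex 𝔄.lvl M).homology 2 :=
  frcCls hApi (lvlComplex 𝔄.lvl M) 2 ∘ₗ frcFstZ 𝔄 M

theorem frcPi_apply (x : FrcX 𝔄 M) :
    frcPi hApi 𝔄 M x = frcCls hApi (lvlComplex 𝔄.lvl M) 2 (frcFstZ 𝔄 M x) := rfl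

theorem frcSnd_eq_of_mem (x : FrcX 𝔄 M) (v : 𝔄.ι) :
    locRes 𝔄 M v 2 (frcFst 𝔄 M 1 x.1) =
      lvlD (𝔄.lvlv v) (Rep.res (𝔄.loc v) M) 1 (frcSnd 𝔄 M 1 v x.1) := by
  have h := frcSnd_d 𝔄 M 1 v x.1
  rw [mem_frcZ.mp x.2, map_zero] at h
  exact (sub_eq_zero.mp h.symm)

variable {𝔄}

/-- The pairing `Z²_c(M) × Z¹(M^*(χ)) → k`, `(x, y) ↦ Θ²(x)(y)`. -/
noncomputable def frcPair :
    FrcX 𝔄 M →ₗ[k] frcZ (lvlComplex 𝔄.lvl (M.dualTwist 𝔄.χ)) 1 →ₗ[k] k :=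
  LinearMap.mk₂ k (fun x y => theta2 M T (ccOut 𝔄 M 1 x.1) y.1)
    (fun x x' y => by
      show theta2 M T (ccOut 𝔄 M 1 (x.1 + x'.1)) y.1 = _
      rw [map_add, map_add, LinearMap.add_apply])
    (fun c x y => by
      show theta2 M T (ccOut 𝔄 M 1 (c • x.1)) y.1 = _
      rw [map_smul, map_smul, LinearMap.smul_apply])
    (fun x y y' => by
      show theta2 M T (ccOut 𝔄 M 1 x.1) (y.1 + y'.1) = _
      rw [map_add])
    (fun c x y => by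
      show theta2 M T (ccOut 𝔄 M 1 x.1) (c • y.1) = _
      rw [map_smul])

theorem frcPair_apply (x : FrcX 𝔄 M) (y : frcZ (lvlComplex 𝔄.lvl (M.dualTwist 𝔄.χ)) 1) :
    frcPair T M x y = theta2 M T (ccOut 𝔄 M 1 x.1) y.1 := rfl

/-- The pairing kills coboundaries in the second variable. -/
theorem frcPair_d (h : ThetaComm M T) (x : FrcX 𝔄 M)
    (e : (lvlComplex 𝔄.lvl (M.dualTwist 𝔄.χ)).X 0) :
    frcPair T M x ⟨((lvlComplex 𝔄.lvl (M.dualTwist 𝔄.χ)).d 0 1).hom e,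
      frc_d_mem (lvlComplex 𝔄.lvl (M.dualTwist 𝔄.χ)) 0 e⟩ = 0 := by
  rw [frcPair_apply]
  have h1 := frc_theta3_d T M h x.1 e
  have h2 : ((lvlComplex 𝔄.lvl (M.dualTwist 𝔄.χ)).d 0 1).hom e =
      lvlD 𝔄.lvl (M.dualTwist 𝔄.χ) 0 e := frc_lvl_d_apply (M.dualTwist 𝔄.χ) 𝔄.lvl 0 e
  have h3 : theta2 M T (ccOut 𝔄 M 1 x.1) (((lvlComplex 𝔄.lvl (M.dualTwist 𝔄.χ)).d 0 1).hom e) =
      theta2 M T (ccOut 𝔄 M 1 x.1) (lvlD 𝔄.lvl (M.dualTwist 𝔄.χ) 0 e) :=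
    congrArg (theta2 M T (ccOut 𝔄 M 1 x.1)) h2
  refine h3.trans (h1.symm.trans ?_)
  rw [mem_frcZ.mp x.2, map_zero, map_zero, LinearMap.zero_apply]

include hApi in
theorem frc_exists_F (h : ThetaComm M T) :
    ∃ F : (lvlComplex 𝔄.lvl (M.dualTwist 𝔄.χ)).homology 1 →ₗ[k] (FrcX 𝔄 M →ₗ[k] k),
      ∀ (y : frcZ (lvlComplex 𝔄.lvl (M.dualTwist 𝔄.χ)) 1) (x : FrcX 𝔄 M),
        F (frcCls hApi (lvlComplex 𝔄.lvl (M.dualTwist 𝔄.χ)) 1 y) x =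
          theta2 M T (ccOut 𝔄 M 1 x.1) y.1 := by
  obtain ⟨F, hF⟩ := frc_desc hApi (lvlComplex 𝔄.lvl (M.dualTwist 𝔄.χ)) 0 (frcPair T M).flip
    (fun e => by
      refine LinearMap.ext fun x => ?_
      rw [LinearMap.flip_apply]
      exact frcPair_d T M h x e)
  refine ⟨F, fun y x => ?_⟩
  rw [hF y]
  rfl

/-- The descended pairing `H¹(M^*(χ)) → Dual Z²_c(M)`. -/
noncomputable def frcF (h : ThetaComm M T) :
    (lvlComplex 𝔄.lvl (M.dualTwist 𝔄.χ)).homology 1 →ₗ[k] (FrcX 𝔄 M →ₗ[k] k) :=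
  Classical.choose (frc_exists_F hApi T M h)

theorem frcF_cls (h : ThetaComm M T) (y : frcZ (lvlComplex 𝔄.lvl (M.dualTwist 𝔄.χ)) 1)
    (x : FrcX 𝔄 M) :
    frcF hApi T M h (frcCls hApi (lvlComplex 𝔄.lvl (M.dualTwist 𝔄.χ)) 1 y) x =
      theta2 M T (ccOut 𝔄 M 1 x.1) y.1 :=
  Classical.choose_spec (frc_exists_F hApi T M h) y x

/-- The map `Θ : Z²_c(M) → Dual Ш¹(M^*(χ))`. -/
noncomputable def frcTheta (h : ThetaComm M T) :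
    FrcX 𝔄 M →ₗ[k] Module.Dual k (frameSha 𝔄 (M.dualTwist 𝔄.χ) 1) :=
  ((frcF hApi T M h).comp (frameSha 𝔄 (M.dualTwist 𝔄.χ) 1).subtype).flip

theorem frcTheta_apply (h : ThetaComm M T) (x : FrcX 𝔄 M)
    (s : frameSha 𝔄 (M.dualTwist 𝔄.χ) 1) :
    frcTheta hApi T M h x s = frcF hApi T M h s.1 x := rfl

theorem frcTheta_cls (h : ThetaComm M T) (x : FrcX 𝔄 M)
    (s : frameSha 𝔄 (M.dualTwist 𝔄.χ) 1) (y : frcZ (lvlComplex 𝔄.lvl (M.dualTwist 𝔄.χ)) 1)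
    (hy : frcCls hApi (lvlComplex 𝔄.lvl (M.dualTwist 𝔄.χ)) 1 y = s.1) :
    frcTheta hApi T M h x s = theta2 M T (ccOut 𝔄 M 1 x.1) y.1 := by
  rw [frcTheta_apply, ← hy, frcF_cls]

end Defs

end Fermat.Agent.H77
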