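import Fermat.Agent.H77.FrCore.Theta

set_option autoImplicit false

universe u

open CategoryTheory groupCohomology

namespace Fermat.Agent.H77

open Fermat.Agent.H13.Cft

section Leibniz

variable {k Γ : Type u} [CommRing k] [Group Γ] (𝒱 : LevelSys Γ) {A B C : Rep.{u} k Γ}
  (β : RepPairing A B C)

/-- value of a `1`-cochain -/
def frcV1 (l : (Fin 1 → Γ) → A) (g : Γ) : A := l fun _ => g

/-- value of a `0`-cochain -/
def frcV0 (e : (Fin 0 → Γ) → B) : B := e default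

theorem frc_d0_apply (e : (Fin 0 → Γ) → B) (h : Fin 1 → Γ) :
    (inhomogeneousCochains.d B 0).hom e h = B.ρ (h 0) (frcV0 e) - frcV0 e := by
  rw [inhomogeneousCochains.d_hom_apply]
  simp only [frcV0, sub_eq_add_neg]
  rw [Subsingleton.elim (fun i : Fin 0 => h i.succ) default]
  congr 1
  simp
  exact congrArg e (Subsingleton.elim _ _)

theorem frc_d1_apply (l : (Fin 1 → Γ) → A) (g : Fin 2 → Γ) :
    (inhomogeneousCochains.d A 1).hom l g =
      A.ρ (g 0) (frcV1 l (g 1)) - frcV1 l (g 0 * g 1) + frcV1 l (g 0) := by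
  rw [inhomogeneousCochains.d_hom_apply]
  have e1 : (fun i : Fin 1 => g i.succ) = fun _ => g 1 := by
    funext i
    rw [Subsingleton.elim i 0]
    rfl
  have e2 : Fin.contractNth 0 (fun x1 x2 => x1 * x2) g = fun _ => g 0 * g 1 := by
    funext i
    rw [Subsingleton.elim i 0]
    rfl
  have e3 : Fin.contractNth 1 (fun x1 x2 => x1 * x2) g = fun _ => g 0 := by
    funext i
    rw [Subsingleton.elim i 0]
    rfl
  simp only [frcV1, sub_eq_add_neg, e1]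
  simp
  rw [e2, e3, add_assoc]

theorem frc_cup10_apply (l : (Fin 1 → Γ) → A) (e : (Fin 0 → Γ) → B) (h : Fin (1 + 0) → Γ) :
    cupFn β 1 0 l e h = β.toLin (frcV1 l (h 0)) (B.ρ (h 0) (frcV0 e)) := by
  unfold cupFn
  have e1 : (fun t : Fin 1 => h (Fin.castAdd 0 t)) = fun _ => h 0 := by
    funext i
    rw [Subsingleton.elim i 0]
    rfl
  have e2 : headProd (i := 1) (j := 0) h = h 0 := by
    simp [headProd]
  rw [e1, e2, Subsingleton.elim (fun t : Fin 0 => h (Fin.natAdd 1 t)) default]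
  rfl

theorem frc_cup11_apply (l : (Fin 1 → Γ) → A) (y : (Fin 1 → Γ) → B) (g : Fin (1 + 1) → Γ) :
    cupFn β 1 1 l y g = β.toLin (frcV1 l (g 0)) (B.ρ (g 0) (frcV1 y (g 1))) := by
  unfold cupFn
  have e1 : (fun t : Fin 1 => g (Fin.castAdd 1 t)) = fun _ => g 0 := by
    funext i
    rw [Subsingleton.elim i 0]
    rfl
  have e2 : headProd (i := 1) (j := 1) g = g 0 := by
    simp [headProd]
  have e3 : (fun t : Fin 1 => g (Fin.natAdd 1 t)) = fun _ => g 1 := by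
    funext i
    rw [Subsingleton.elim i 0]
    rfl
  rw [e1, e2, e3]
  rfl

/-- Local Leibniz rule in bidegree `(1, 0)` for a cocycle `l`:
`l ∪ d e = - d (l ∪ e)`. -/
theorem frc_leibniz10 (l : lvlCochains 𝒱 A 1) (hl : lvlD 𝒱 A 1 l = 0) (e : lvlCochains 𝒱 B 0) :
    cupLvl 𝒱 β 1 1 l (lvlD 𝒱 B 0 e) = - lvlD 𝒱 C 1 (cupLvl 𝒱 β 1 0 l e) := by
  apply Subtype.ext
  funext g
  have hcoc : A.ρ (g 0) (frcV1 l.1 (g 1)) - frcV1 l.1 (g 0 * g 1) + frcV1 l.1 (g 0) = 0 := by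
    rw [← frc_d1_apply]
    have := congrArg (fun z : lvlCochains 𝒱 A 2 => z.1 g) hl
    exact this
  have hL : (cupLvl 𝒱 β 1 1 l (lvlD 𝒱 B 0 e)).1 g =
      β.toLin (frcV1 l.1 (g 0)) (B.ρ (g 0) (B.ρ (g 1) (frcV0 e.1) - frcV0 e.1)) := by
    show cupFn β 1 1 l.1 (lvlD 𝒱 B 0 e).1 g = _
    rw [frc_cup11_apply]
    congr 2
    exact frc_d0_apply e.1 (fun _ => g 1)
  have hc : ∀ x : Γ, frcV1 (cupLvl 𝒱 β 1 0 l e).1 x =
      β.toLin (frcV1 l.1 x) (B.ρ x (frcV0 e.1)) := by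
    intro x
    show cupFn β 1 0 l.1 e.1 (fun _ => x) = _
    rw [frc_cup10_apply]
  have hR : (- lvlD 𝒱 C 1 (cupLvl 𝒱 β 1 0 l e)).1 g =
      - (C.ρ (g 0) (β.toLin (frcV1 l.1 (g 1)) (B.ρ (g 1) (frcV0 e.1))) -
        β.toLin (frcV1 l.1 (g 0 * g 1)) (B.ρ (g 0 * g 1) (frcV0 e.1)) +
        β.toLin (frcV1 l.1 (g 0)) (B.ρ (g 0) (frcV0 e.1))) := by
    show - ((inhomogeneousCochains.d C 1).hom (cupLvl 𝒱 β 1 0 l e).1 g) = _
    rw [frc_d1_apply, hc, hc, hc]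
  rw [hL, hR, ← β.equivariant]
  have h2 : frcV1 l.1 (g 0 * g 1) = A.ρ (g 0) (frcV1 l.1 (g 1)) + frcV1 l.1 (g 0) := by
    have := hcoc
    rw [sub_add_eq_add_sub, sub_eq_zero] at this
    exact this.symm
  rw [h2, map_add, LinearMap.add_apply, map_sub, map_sub, map_mul, Module.End.mul_apply]
  abel

end Leibniz

end Fermat.Agent.H77
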