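import Fermat.Agent.H77.FrCore.Defs

/-!
# P-CFT / FR-CORE (helper77): the image of `π` is `Ш²`
-/

set_option autoImplicit false

universe u

open CategoryTheory groupCohomology

namespace Fermat.Agent.H77

open Fermat.Agent.H13.Cft

section Range

variable {k G : Type u} [CommRing k] [Group G] (hApi : HomologyApiStatement.{u})
  (𝔄 : ArithDatum k G) (M : Rep.{u} k G)

/-- `res x = d b` componentwise. -/
theorem frc_loc_ext {n : ℕ} {b c : (locComplex 𝔄 M).X n}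
    (h : ∀ v, frcLocOut 𝔄 M n b v = frcLocOut 𝔄 M n c v) : b = c := by
  have : frcLocOut 𝔄 M n b = frcLocOut 𝔄 M n c := funext h
  exact this

include hApi in
theorem frcPi_mem_sha (x : FrcX 𝔄 M) : frcPi hApi 𝔄 M x ∈ frameSha 𝔄 M 2 := by
  unfold frameSha
  rw [LinearMap.mem_ker, frcPi_apply,
    frcCls_map hApi (resTot 𝔄 M) 2 _ (frc_map_mem (resTot 𝔄 M) 2 _)]
  rw [frcCls_eq_zero_iff hApi (locComplex 𝔄 M) 1]
  refine ⟨frcLocMk 𝔄 M 1 (fun v => frcSnd 𝔄 M 1 v x.1), ?_⟩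
  refine frc_loc_ext 𝔄 M fun v => ?_
  rw [frcLocOut_d]
  show lvlD (𝔄.lvlv v) (Rep.res (𝔄.loc v) M) 1 (frcSnd 𝔄 M 1 v x.1) =
    frcLocOut 𝔄 M 2 (((resTot 𝔄 M).f 2).hom (frcFst 𝔄 M 1 x.1)) v
  rw [frcLocOut_resTot]
  exact (frcSnd_eq_of_mem 𝔄 M x v).symm

/-- A pair `(a, b)` with `d a = 0`, `res a = d b` is a compactly supported cocycle. -/
theorem frc_mk_mem (a : lvlCochains 𝔄.lvl M 2)
    (b : ∀ v, lvlCochains (𝔄.lvlv v) (Rep.res (𝔄.loc v) M) 1)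
    (ha : lvlD 𝔄.lvl M 2 a = 0)
    (hb : ∀ v, locRes 𝔄 M v 2 a = lvlD (𝔄.lvlv v) (Rep.res (𝔄.loc v) M) 1 (b v)) :
    ccMk 𝔄 M 1 (a, b) ∈ frcZ (ccComplex 𝔄 M) 2 := by
  rw [mem_frcZ]
  refine frc_cc_ext 𝔄 M ?_ fun v => ?_
  · rw [frcFst_d, map_zero]
    exact ha
  · rw [frcSnd_d, map_zero]
    show locRes 𝔄 M v 2 a - lvlD (𝔄.lvlv v) (Rep.res (𝔄.loc v) M) 1 (b v) = 0
    rw [hb v, sub_self]

include hApi in
theorem frc_range_pi : LinearMap.range (frcPi hApi 𝔄 M) = frameSha 𝔄 M 2 := by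
  apply le_antisymm
  · rintro _ ⟨x, rfl⟩
    exact frcPi_mem_sha hApi 𝔄 M x
  · intro z hz
    obtain ⟨a, rfl⟩ := frcCls_surjective hApi (lvlComplex 𝔄.lvl M) 2 z
    unfold frameSha at hz
    rw [LinearMap.mem_ker, frcCls_map hApi (resTot 𝔄 M) 2 _ (frc_map_mem (resTot 𝔄 M) 2 _),
      frcCls_eq_zero_iff hApi (locComplex 𝔄 M) 1] at hz
    obtain ⟨b, hb⟩ := hz
    have ha : lvlD 𝔄.lvl M 2 a.1 = 0 := by
      rw [← frc_lvl_d_apply]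
      exact mem_frcZ.mp a.2
    have hb' : ∀ v, locRes 𝔄 M v 2 a.1 =
        lvlD (𝔄.lvlv v) (Rep.res (𝔄.loc v) M) 1 (frcLocOut 𝔄 M 1 b v) := by
      intro v
      rw [← frcLocOut_d, ← frcLocOut_resTot]
      exact (congrArg (fun c => frcLocOut 𝔄 M 2 c v) hb).symm
    refine ⟨⟨ccMk 𝔄 M 1 (a.1, frcLocOut 𝔄 M 1 b), frc_mk_mem 𝔄 M a.1 _ ha hb'⟩, ?_⟩
    rw [frcPi_apply]
    congr 1

end Range

end Fermat.Agent.H77
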