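import Fermat.Agent.H77.FrCore.Range

/-!
# P-CFT / FR-CORE (helper77): `Θ` is surjective
-/

set_option autoImplicit false

universe u

open CategoryTheory groupCohomology

namespace Fermat.Agent.H77

open Fermat.Agent.H13.Cft

section DualExt

variable {k : Type u} [CommRing k] (K : CochainComplex (ModuleCat.{u} k) ℕ)

theorem frcEv3_inj (z : (dualCx K).X 3) (h : ∀ e, frcEv3 K z e = 0) : z = 0 := by
  have : frcEv3 K z = 0 := LinearMap.ext h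
  exact this

theorem frcEv2_inj (z : (dualCx K).X 2) (h : ∀ e, frcEv2 K z e = 0) : z = 0 := by
  have : frcEv2 K z = 0 := LinearMap.ext h
  exact this

theorem frcEv2_ext (z z' : (dualCx K).X 2) (h : ∀ e, frcEv2 K z e = frcEv2 K z' e) : z = z' := by
  have : frcEv2 K z = frcEv2 K z' := LinearMap.ext h
  exact this

end DualExt

section Surj

variable {k G : Type u} [Field k] [Group G] (hApi : HomologyApiStatement.{u})
  {𝔄 : ArithDatum k G} (T : Trace 𝔄) (M : Rep.{u} k G)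

include hApi in
/-- If `Θ²` is surjective on cohomology then every linear form on `H¹(M^*(χ))` is `Θ²(x)` for a
compactly supported cocycle `x`. -/
theorem frc_exists_rep (h : ThetaComm M T)
    (hsurj : Function.Surjective (HomologicalComplex.homologyMap (thetaHom M T h) 2).hom)
    (ψ : (lvlComplex 𝔄.lvl (M.dualTwist 𝔄.χ)).homology 1 →ₗ[k] k) :
    ∃ x : FrcX 𝔄 M, ∀ y : frcZ (lvlComplex 𝔄.lvl (M.dualTwist 𝔄.χ)) 1,
      theta2 M T (ccOut 𝔄 M 1 x.1) y.1 =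
        ψ (frcCls hApi (lvlComplex 𝔄.lvl (M.dualTwist 𝔄.χ)) 1 y) := by
  obtain ⟨ξ, hξ⟩ := LinearMap.exists_extend
    (ψ ∘ₗ frcCls hApi (lvlComplex 𝔄.lvl (M.dualTwist 𝔄.χ)) 1)
  have hξ' : ∀ y : frcZ (lvlComplex 𝔄.lvl (M.dualTwist 𝔄.χ)) 1,
      ξ y.1 = ψ (frcCls hApi (lvlComplex 𝔄.lvl (M.dualTwist 𝔄.χ)) 1 y) :=
    fun y => LinearMap.congr_fun hξ y
  have hξd : ((dualCx (lvlComplex 𝔄.lvl (M.dualTwist 𝔄.χ))).d 2 3).hom
      (frcCo2 (lvlComplex 𝔄.lvl (M.dualTwist 𝔄.χ)) ξ) = 0 := by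
    apply frcEv3_inj
    intro e
    rw [frcEv3_d]
    show ξ (((lvlComplex 𝔄.lvl (M.dualTwist 𝔄.χ)).d 0 1).hom e) = 0
    have h1 := hξ' ⟨((lvlComplex 𝔄.lvl (M.dualTwist 𝔄.χ)).d 0 1).hom e,
      frc_d_mem (lvlComplex 𝔄.lvl (M.dualTwist 𝔄.χ)) 0 e⟩
    rw [frcCls_d, map_zero] at h1
    exact h1
  obtain ⟨c, hc⟩ := hsurj (frcCls hApi (dualCx (lvlComplex 𝔄.lvl (M.dualTwist 𝔄.χ))) 2
    ⟨frcCo2 (lvlComplex 𝔄.lvl (M.dualTwist 𝔄.χ)) ξ, hξd⟩)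
  obtain ⟨x, rfl⟩ := frcCls_surjective hApi (ccComplex 𝔄 M) 2 c
  rw [frcCls_map hApi (thetaHom M T h) 2 x (frc_map_mem (thetaHom M T h) 2 x),
    frcCls_eq_iff hApi (dualCx (lvlComplex 𝔄.lvl (M.dualTwist 𝔄.χ))) 1] at hc
  obtain ⟨η, hη⟩ := hc
  refine ⟨x, fun y => ?_⟩
  rw [← hξ' y]
  have h1 : frcEv2 (lvlComplex 𝔄.lvl (M.dualTwist 𝔄.χ))
      (((dualCx (lvlComplex 𝔄.lvl (M.dualTwist 𝔄.χ))).d 1 2).hom η) y.1 =
      frcEv2 (lvlComplex 𝔄.lvl (M.dualTwist 𝔄.χ))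
        (((thetaHom M T h).f 2).hom x.1 - frcCo2 (lvlComplex 𝔄.lvl (M.dualTwist 𝔄.χ)) ξ) y.1 :=
    congrArg (fun z => frcEv2 (lvlComplex 𝔄.lvl (M.dualTwist 𝔄.χ)) z y.1) hη
  rw [frcEv2_d, mem_frcZ.mp y.2, map_zero, map_sub, LinearMap.sub_apply] at h1
  have h2 : frcEv2 (lvlComplex 𝔄.lvl (M.dualTwist 𝔄.χ)) (((thetaHom M T h).f 2).hom x.1) y.1 =
      theta2 M T (ccOut 𝔄 M 1 x.1) y.1 := rfl
  have h3 : frcEv2 (lvlComplex 𝔄.lvl (M.dualTwist 𝔄.χ))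
      (frcCo2 (lvlComplex 𝔄.lvl (M.dualTwist 𝔄.χ)) ξ) y.1 = ξ y.1 := rfl
  rw [h2, h3] at h1
  exact (sub_eq_zero.mp h1.symm)

include hApi in
theorem frc_theta_surjective (h : ThetaComm M T)
    (hsurj : Function.Surjective (HomologicalComplex.homologyMap (thetaHom M T h) 2).hom) :
    Function.Surjective (frcTheta hApi T M h) := by
  intro ψ
  obtain ⟨ψ', hψ'⟩ := LinearMap.exists_extend ψ
  obtain ⟨x, hx⟩ := frc_exists_rep hApi T M h hsurj ψ'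
  refine ⟨x, LinearMap.ext fun s => ?_⟩
  obtain ⟨y, hy⟩ := frcCls_surjective hApi (lvlComplex 𝔄.lvl (M.dualTwist 𝔄.χ)) 1 s.1
  rw [frcTheta_cls hApi T M h x s y hy, hx y, hy]
  exact LinearMap.congr_fun hψ' s

end Surj

end Fermat.Agent.H77
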