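import Fermat.Agent.H77.FrCore.Unfold

set_option autoImplicit false

universe u

open CategoryTheory

namespace Fermat.Agent.H77

open Fermat.Agent.H13.Cft

section Dual

variable {k : Type u} [CommRing k] (K : CochainComplex (ModuleCat.{u} k) ℕ)

/-- Elements of `D¹` as linear forms on `K²`. -/
noncomputable def frcEv1 : (dualCx K).X 1 →ₗ[k] Module.Dual k (K.X 2) := LinearMap.id

/-- Elements of `D²` as linear forms on `K¹`. -/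
noncomputable def frcEv2 : (dualCx K).X 2 →ₗ[k] Module.Dual k (K.X 1) := LinearMap.id

/-- Elements of `D³` as linear forms on `K⁰`. -/
noncomputable def frcEv3 : (dualCx K).X 3 →ₗ[k] Module.Dual k (K.X 0) := LinearMap.id

/-- Linear forms on `K²` as elements of `D¹`. -/
noncomputable def frcCo1 : Module.Dual k (K.X 2) →ₗ[k] (dualCx K).X 1 := LinearMap.id

/-- Linear forms on `K¹` as elements of `D²`. -/
noncomputable def frcCo2 : Module.Dual k (K.X 1) →ₗ[k] (dualCx K).X 2 := LinearMap.id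

@[simp] theorem frcEv1_co1 (η : Module.Dual k (K.X 2)) : frcEv1 K (frcCo1 K η) = η := rfl
@[simp] theorem frcEv2_co2 (ξ : Module.Dual k (K.X 1)) : frcEv2 K (frcCo2 K ξ) = ξ := rfl
@[simp] theorem frcCo2_ev2 (ξ : (dualCx K).X 2) : frcCo2 K (frcEv2 K ξ) = ξ := rfl

theorem frc_dual_d12 : (dualCx K).d 1 2 = dualD K 1 := by
  unfold dualCx
  exact CochainComplex.of_d (V := ModuleCat.{u} k) (α := ℕ) _ (dualD K) 1

theorem frc_dual_d23 : (dualCx K).d 2 3 = dualD K 2 := by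
  unfold dualCx
  exact CochainComplex.of_d (V := ModuleCat.{u} k) (α := ℕ) _ (dualD K) 2

theorem frcEv2_d (η : (dualCx K).X 1) (y : K.X 1) :
    frcEv2 K (((dualCx K).d 1 2).hom η) y = frcEv1 K η ((K.d 1 2).hom y) := by
  rw [frc_dual_d12]
  rfl

theorem frcEv3_d (ξ : (dualCx K).X 2) (e : K.X 0) :
    frcEv3 K (((dualCx K).d 2 3).hom ξ) e = frcEv2 K ξ ((K.d 0 1).hom e) := by
  rw [frc_dual_d23]
  rfl

end Dual

section Theta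

variable {k G : Type u} [CommRing k] [Group G] {𝔄 : ArithDatum k G} (T : Trace 𝔄)
  (M : Rep.{u} k G)

theorem frcEv2_theta (x : (ccComplex 𝔄 M).X 2) :
    frcEv2 _ ((thetaF M T 2).hom x) = theta2 M T (ccOut 𝔄 M 1 x) :=
  rfl

theorem frcEv1_theta (x : (ccComplex 𝔄 M).X 1) :
    frcEv1 _ ((thetaF M T 1).hom x) = theta1 M T (ccOut 𝔄 M 0 x) :=
  rfl

theorem frcEv3_theta (x : (ccComplex 𝔄 M).X 3) :
    frcEv3 _ ((thetaF M T 3).hom x) = theta3 M T (ccOut 𝔄 M 2 x) :=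
  rfl

/-- `Θ²(d x)(y) = Θ¹(x)(d y)`. -/
theorem frc_theta2_d (h : ThetaComm M T) (x : (ccComplex 𝔄 M).X 1)
    (y : lvlCochains 𝔄.lvl (M.dualTwist 𝔄.χ) 1) :
    theta2 M T (ccOut 𝔄 M 1 (((ccComplex 𝔄 M).d 1 2).hom x)) y =
      theta1 M T (ccOut 𝔄 M 0 x) (lvlD 𝔄.lvl (M.dualTwist 𝔄.χ) 1 y) := by
  have h1 := LinearMap.congr_fun (congrArg ModuleCat.Hom.hom (h 1)) x
  have h2 : ((dualCx (lvlComplex 𝔄.lvl (M.dualTwist 𝔄.χ))).d 1 2).hom ((thetaF M T 1).hom x) =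
      (thetaF M T 2).hom (((ccComplex 𝔄 M).d 1 2).hom x) := h1
  have h3 : frcEv2 (lvlComplex 𝔄.lvl (M.dualTwist 𝔄.χ))
      (((dualCx (lvlComplex 𝔄.lvl (M.dualTwist 𝔄.χ))).d 1 2).hom ((thetaF M T 1).hom x)) y =
      frcEv2 (lvlComplex 𝔄.lvl (M.dualTwist 𝔄.χ))
        ((thetaF M T 2).hom (((ccComplex 𝔄 M).d 1 2).hom x)) y :=
    congrArg (fun ξ => frcEv2 (lvlComplex 𝔄.lvl (M.dualTwist 𝔄.χ)) ξ y) h2
  have h4 := frcEv2_d (lvlComplex 𝔄.lvl (M.dualTwist 𝔄.χ)) ((thetaF M T 1).hom x) y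
  have h5 : ((lvlComplex 𝔄.lvl (M.dualTwist 𝔄.χ)).d 1 2).hom y =
      lvlD 𝔄.lvl (M.dualTwist 𝔄.χ) 1 y := frc_lvl_d_apply (M.dualTwist 𝔄.χ) 𝔄.lvl 1 y
  exact (h3.symm.trans h4).trans (congrArg (theta1 M T (ccOut 𝔄 M 0 x)) h5)

/-- `Θ³(d x)(e) = Θ²(x)(d e)`. -/
theorem frc_theta3_d (h : ThetaComm M T) (x : (ccComplex 𝔄 M).X 2)
    (e : lvlCochains 𝔄.lvl (M.dualTwist 𝔄.χ) 0) :
    theta3 M T (ccOut 𝔄 M 2 (((ccComplex 𝔄 M).d 2 3).hom x)) e =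
      theta2 M T (ccOut 𝔄 M 1 x) (lvlD 𝔄.lvl (M.dualTwist 𝔄.χ) 0 e) := by
  have h1 := LinearMap.congr_fun (congrArg ModuleCat.Hom.hom (h 2)) x
  have h2 : ((dualCx (lvlComplex 𝔄.lvl (M.dualTwist 𝔄.χ))).d 2 3).hom ((thetaF M T 2).hom x) =
      (thetaF M T 3).hom (((ccComplex 𝔄 M).d 2 3).hom x) := h1
  have h3 : frcEv3 (lvlComplex 𝔄.lvl (M.dualTwist 𝔄.χ))
      (((dualCx (lvlComplex 𝔄.lvl (M.dualTwist 𝔄.χ))).d 2 3).hom ((thetaF M T 2).hom x)) e =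
      frcEv3 (lvlComplex 𝔄.lvl (M.dualTwist 𝔄.χ))
        ((thetaF M T 3).hom (((ccComplex 𝔄 M).d 2 3).hom x)) e :=
    congrArg (fun ξ => frcEv3 (lvlComplex 𝔄.lvl (M.dualTwist 𝔄.χ)) ξ e) h2
  have h4 := frcEv3_d (lvlComplex 𝔄.lvl (M.dualTwist 𝔄.χ)) ((thetaF M T 2).hom x) e
  have h5 : ((lvlComplex 𝔄.lvl (M.dualTwist 𝔄.χ)).d 0 1).hom e =
      lvlD 𝔄.lvl (M.dualTwist 𝔄.χ) 0 e := frc_lvl_d_apply (M.dualTwist 𝔄.χ) 𝔄.lvl 0 e
  exact (h3.symm.trans h4).trans (congrArg (theta2 M T (ccOut 𝔄 M 1 x)) h5)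

theorem frc_theta2_apply (x : CcProd 𝔄 M 1) (y : lvlCochains 𝔄.lvl (M.dualTwist 𝔄.χ) 1) :
    theta2 M T x y = - T.τ (ccCup 𝔄 M 1 1 x y) :=
  rfl

end Theta

end Fermat.Agent.H77
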